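import Mathlib
import Fermat.Prelude.Thm_ModularForm_heckeT_slash_eq_self_of_mem_Gamma0
import Fermat.Agent.S41.Ihara.Eisenstein

/-!
# P-S48 (DS0-c), nebentypus lemma, part 4: the honest Hecke operator on `Γ₁(N)`  (helper62)

For a function `f` invariant of weight `k` under `Γ₁(N)`, a prime `p ∤ N` and `σ ∈ Γ₀(N)` with
lower right entry `≡ p mod N`, the function
`T_p f = U_p f + (f ∣ σ) ∣ diag(p, 1)` is again invariant under `Γ₁(N)`
(`twistedHecke_slash_eq`).
-/

set_option autoImplicit false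
set_option linter.unusedSectionVars false

namespace Fermat.Agent.S48x.Nebentypus

open P2MW.S_ModularForm_heckeT_slash_eq_self_of_mem_Gamma0.ModularForm.HeckeSlashInvariance
open CongruenceSubgroup Matrix.SpecialLinearGroup UpperHalfPlane
open Fermat.Agent.Gateway.HeckeCoh (coc coc_spec)
open Fermat.Agent.S41.Ihara (repInt repInt_infty repInt_coe coc_int)
open scoped MatrixGroups ModularForm

/-- The lower right entry is multiplicative modulo `N` on `Γ₀(N)`. -/
theorem lowerRight_mul {N : ℕ} {A : SL(2, ℤ)} (hA : A ∈ Gamma0 N) (B : SL(2, ℤ)) :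
    (((A * B) 1 1 : ℤ) : ZMod N) = ((A 1 1 : ℤ) : ZMod N) * ((B 1 1 : ℤ) : ZMod N) := by
  rw [Matrix.SpecialLinearGroup.coe_mul, Matrix.mul_apply, Fin.sum_univ_two]
  push_cast
  rw [Gamma0_mem.mp hA]
  ring

/-- For `g ∈ Γ₀(N)`, `a d ≡ 1 mod N`. -/
theorem upperLeft_mul_lowerRight {N : ℕ} {g : SL(2, ℤ)} (hg : g ∈ Gamma0 N) :
    ((g 0 0 : ℤ) : ZMod N) * ((g 1 1 : ℤ) : ZMod N) = 1 := by
  have := congrArg (Int.cast : ℤ → ZMod N) (det_eq g)
  push_cast at this
  rw [Gamma0_mem.mp hg] at this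
  linear_combination this

/-- Two elements of `Γ₀(N)` with the same lower right entry modulo `N` act in the same way on
`Γ₁(N)`-invariant functions. -/
theorem slash_eq_of_lowerRight_eq {N : ℕ} (k : ℤ) {f : ℍ → ℂ}
    (hf : ∀ γ ∈ Gamma1 N, f ∣[k] (mapGL ℝ γ : GL (Fin 2) ℝ) = f) {g₁ g₂ : SL(2, ℤ)}
    (h₁ : g₁ ∈ Gamma0 N) (h₂ : g₂ ∈ Gamma0 N)
    (h : ((g₁ 1 1 : ℤ) : ZMod N) = ((g₂ 1 1 : ℤ) : ZMod N)) :
    f ∣[k] (mapGL ℝ g₁ : GL (Fin 2) ℝ) = f ∣[k] (mapGL ℝ g₂ : GL (Fin 2) ℝ) := by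
  have hmem : g₁ * g₂⁻¹ ∈ Gamma1 N := by
    have e1 := upperLeft_mul_lowerRight h₁
    have e2 := upperLeft_mul_lowerRight h₂
    have c1 := Gamma0_mem.mp h₁
    have c2 := Gamma0_mem.mp h₂
    rw [Gamma1_mem]
    simp only [Matrix.SpecialLinearGroup.coe_mul, Matrix.SpecialLinearGroup.coe_inv,
      Matrix.adjugate_fin_two, Matrix.mul_apply, Fin.sum_univ_two, Matrix.of_apply,
      Matrix.cons_val', Matrix.cons_val_zero, Matrix.cons_val_one, Matrix.empty_val',
      Matrix.cons_val_fin_one]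
    push_cast
    refine ⟨?_, ?_, ?_⟩
    · rw [c2, ← h]; linear_combination e1
    · rw [c1, h]; linear_combination e2
    · rw [c1, c2]; ring
  have := hf _ hmem
  rw [map_mul, SlashAction.slash_mul] at this
  have h3 := congrArg (fun F => F ∣[k] (mapGL ℝ g₂ : GL (Fin 2) ℝ)) this
  beta_reduce at h3
  rw [← SlashAction.slash_mul, ← map_mul, inv_mul_cancel, map_one, SlashAction.slash_one] at h3
  exact h3

section Twisted

variable (N p : ℕ) [NeZero N] [Fact p.Prime] (hpN : ¬ p ∣ N)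

theorem repInt_10 (x : OnePoint (ZMod p)) : repInt p x 1 0 = 0 := by
  induction x using OnePoint.rec with
  | infty => simp
  | coe j => simp

/-- The lower right entry of the Hecke representative, modulo `N`. -/
def delta (x : OnePoint (ZMod p)) : ZMod N := ((repInt p x 1 1 : ℤ) : ZMod N)

theorem delta_infty : delta N p (OnePoint.infty) = 1 := by simp [delta]

theorem delta_coe (j : ZMod p) : delta N p (j : OnePoint (ZMod p)) = (p : ZMod N) := by
  simp [delta]

include hpN in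
theorem isUnit_delta (x : OnePoint (ZMod p)) : IsUnit (delta N p x) := by
  induction x using OnePoint.rec with
  | infty => rw [delta_infty]; exact isUnit_one
  | coe j =>
    rw [delta_coe]
    exact (ZMod.isUnit_iff_coprime p N).mpr
      ((Nat.Prime.coprime_iff_not_dvd Fact.out).mpr hpN)

/-- The lower right entry of the Hecke cocycle modulo `N`. -/
theorem coc_lowerRight (x : OnePoint (ZMod p)) (gam : Gamma0 N) :
    ((((coc N p hpN x gam : Gamma0 N) : SL(2, ℤ)) 1 1 : ℤ) : ZMod N) *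
        delta N p (redMatrix p (gam : SL(2, ℤ)) • x) =
      delta N p x * ((((gam : SL(2, ℤ)) 1 1 : ℤ)) : ZMod N) := by
  have h := congrFun (congrFun (coc_int N p hpN x gam) 1) 1
  rw [Matrix.mul_apply, Matrix.mul_apply, Fin.sum_univ_two, Fin.sum_univ_two, repInt_10,
    zero_mul, zero_add] at h
  have h2 := congrArg (Int.cast : ℤ → ZMod N) h
  push_cast at h2
  rw [Gamma0_mem.mp (coc N p hpN x gam).2, zero_mul, zero_add] at h2
  exact h2.symm

/-- The twisting elements: `σ` at `∞`, `1` at the finite points. -/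
def sRep (σ : SL(2, ℤ)) (x : OnePoint (ZMod p)) : SL(2, ℤ) := x.elim σ (fun _ => 1)

theorem sRep_infty (σ : SL(2, ℤ)) : sRep p σ (OnePoint.infty) = σ := rfl

theorem sRep_coe (σ : SL(2, ℤ)) (j : ZMod p) : sRep p σ (j : OnePoint (ZMod p)) = 1 := rfl

theorem sRep_mem {σ : SL(2, ℤ)} (hσ : σ ∈ Gamma0 N) (x : OnePoint (ZMod p)) :
    sRep p σ x ∈ Gamma0 N := by
  induction x using OnePoint.rec with
  | infty => exact hσ
  | coe j => exact one_mem _

theorem sRep_lowerRight {σ : SL(2, ℤ)} (hσp : ((σ 1 1 : ℤ) : ZMod N) = (p : ZMod N))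
    (x : OnePoint (ZMod p)) :
    (((sRep p σ x) 1 1 : ℤ) : ZMod N) * delta N p x = (p : ZMod N) := by
  induction x using OnePoint.rec with
  | infty => rw [sRep_infty, delta_infty, mul_one, hσp]
  | coe j => rw [sRep_coe, delta_coe]; simp

/-- The honest Hecke operator `T_p` on `Γ₁(N)`-invariant functions, `σ ∈ Γ₀(N)` with lower right
entry `≡ p`. -/
noncomputable def twistedHecke (k : ℤ) (σ : SL(2, ℤ)) (f : ℍ → ℂ) : ℍ → ℂ :=
  ModularForm.heckeU k p f +
    (f ∣[k] (mapGL ℝ σ : GL (Fin 2) ℝ)) ∣[k] ModularForm.heckeDiagMatrix p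

theorem twistedHecke_eq_sum (k : ℤ) (σ : SL(2, ℤ)) (f : ℍ → ℂ) :
    twistedHecke p k σ f = ∑ x : OnePoint (ZMod p),
      (f ∣[k] (mapGL ℝ (sRep p σ x) : GL (Fin 2) ℝ)) ∣[k] heckeRep p x := by
  rw [twistedHecke, heckeU_eq_sum_zmod, add_comm]
  refine (Eq.trans (Fintype.sum_option (fun x : OnePoint (ZMod p) =>
    (f ∣[k] (mapGL ℝ (sRep p σ x) : GL (Fin 2) ℝ)) ∣[k] heckeRep p x)) ?_).symm
  congr 1
  refine Finset.sum_congr rfl fun j _ => ?_
  show (f ∣[k] (mapGL ℝ (1 : SL(2, ℤ)) : GL (Fin 2) ℝ)) ∣[k] ModularForm.heckeMatrix p j.val = _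
  rw [map_one, SlashAction.slash_one]

include hpN in
/-- `T_p f` is `Γ₁(N)`-invariant. -/
theorem twistedHecke_slash_eq (k : ℤ) {σ : SL(2, ℤ)} (hσ : σ ∈ Gamma0 N)
    (hσp : ((σ 1 1 : ℤ) : ZMod N) = (p : ZMod N)) {f : ℍ → ℂ}
    (hf : ∀ γ ∈ Gamma1 N, f ∣[k] (mapGL ℝ γ : GL (Fin 2) ℝ) = f) (g : SL(2, ℤ))
    (hg : g ∈ Gamma1 N) :
    twistedHecke p k σ f ∣[k] (mapGL ℝ g : GL (Fin 2) ℝ) = twistedHecke p k σ f := by
  have hg0 : g ∈ Gamma0 N := Gamma1_in_Gamma0 N hg
  set gam : Gamma0 N := ⟨g, hg0⟩ with hgam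
  have hd : ((g 1 1 : ℤ) : ZMod N) = 1 := (Gamma1_mem N g).mp hg |>.2.1
  rw [twistedHecke_eq_sum, SlashAction.sum_slash]
  calc ∑ x : OnePoint (ZMod p),
        ((f ∣[k] (mapGL ℝ (sRep p σ x) : GL (Fin 2) ℝ)) ∣[k] heckeRep p x) ∣[k]
          (mapGL ℝ g : GL (Fin 2) ℝ)
      = ∑ x : OnePoint (ZMod p),
          (f ∣[k] (mapGL ℝ (sRep p σ (redMatrix p g • x)) : GL (Fin 2) ℝ)) ∣[k]
            heckeRep p (redMatrix p g • x) := by
        refine Finset.sum_congr rfl fun x _ => ?_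
        have hspec := coc_spec N p hpN x gam
        have hc := coc_lowerRight N p hpN x gam
        simp only [hgam] at hspec hc
        rw [hd, mul_one] at hc
        rw [← SlashAction.slash_mul, hspec, SlashAction.slash_mul, ← SlashAction.slash_mul k
          (mapGL ℝ (sRep p σ x) : GL (Fin 2) ℝ), ← map_mul]
        congr 1
        refine slash_eq_of_lowerRight_eq k hf
          (Subgroup.mul_mem _ (sRep_mem N p hσ x) (coc N p hpN x ⟨g, hg0⟩).2)
          (sRep_mem N p hσ _) ?_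
        rw [lowerRight_mul (sRep_mem N p hσ x)]
        refine (isUnit_delta N p hpN (redMatrix p g • x)).mul_left_injective ?_
        show _ * delta N p (redMatrix p g • x) = _ * delta N p (redMatrix p g • x)
        rw [mul_assoc, hc, sRep_lowerRight N p hσp, sRep_lowerRight N p hσp]
    _ = ∑ x : OnePoint (ZMod p),
          (f ∣[k] (mapGL ℝ (sRep p σ x) : GL (Fin 2) ℝ)) ∣[k] heckeRep p x :=
        Equiv.sum_comp (MulAction.toPerm (redMatrix p g))
          (fun x => (f ∣[k] (mapGL ℝ (sRep p σ x) : GL (Fin 2) ℝ)) ∣[k] heckeRep p x)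

end Twisted

end Fermat.Agent.S48x.Nebentypus
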