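import Mathlib
import Fermat.Prelude.Thm_UpperHalfPlane_qExpansion_coeff_nat_mul
import Fermat.Prelude.Thm_UpperHalfPlane_eq_of_forall_qCoeff_eq

/-!
# P-S48 (DS0-c), nebentypus lemma, part 2: analysis  (helper62)

A holomorphic function on the upper half plane which vanishes at `i∞` and has all the periods
`p^{-r}` (`r ≥ 0`, `p ≥ 2`) is zero: its `q`-expansion is supported on multiples of `p^r` for
every `r`.
-/

set_option autoImplicit false

namespace Fermat.Agent.S48x.Nebentypus

open UpperHalfPlane Function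
open scoped Manifold

/-- Periodicity of `h ∘ ofComplex` from invariance of `h` under a real translation. -/
theorem periodic_comp_ofComplex_of_vadd {h : ℍ → ℂ} {c : ℝ} (hc : ∀ τ : ℍ, h (c +ᵥ τ) = h τ) :
    Periodic (h ∘ ofComplex) (c : ℂ) := by
  intro w
  by_cases hw : 0 < Complex.im w
  · have hw' : 0 < Complex.im (w + c) := by simp [hw]
    simp only [comp_apply, ofComplex_apply_of_im_pos hw', ofComplex_apply_of_im_pos hw]
    rw [← hc ⟨w, hw⟩]
    congr 1
    ext
    simp [add_comm]
  · have hw0 : Complex.im w ≤ 0 := not_lt.mp hw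
    have hw' : Complex.im (w + c) ≤ 0 := by simpa using hw0
    simp [ofComplex_apply_of_im_nonpos hw', ofComplex_apply_of_im_nonpos hw0]

/-- A holomorphic function on `ℍ`, zero at `i∞`, with periods `p^{-r}` for all `r`, vanishes. -/
theorem eq_zero_of_periodic_pow_inv {h : ℍ → ℂ} (hhol : MDiff h) (hzero : IsZeroAtImInfty h)
    {p : ℕ} (hp : 1 < p) (hper : ∀ r : ℕ, Periodic (h ∘ ofComplex) ((((p : ℝ) ^ r)⁻¹ : ℝ) : ℂ)) :
    h = 0 := by
  have hbdd : IsBoundedAtImInfty h := hzero.boundedAtFilter
  have hper1 : Periodic (h ∘ ofComplex) 1 := by simpa using hper 0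
  have hp0 : (0 : ℝ) < p := by exact_mod_cast (zero_lt_one.trans hp)
  refine UpperHalfPlane.eq_of_forall_qCoeff_eq hper1 hhol hbdd ?_ ?_ ?_ ?_
  · intro w; simp
  · exact mdifferentiable_const
  · exact (Filter.zero_zeroAtFilter atImInfty).boundedAtFilter
  · intro n
    have h0 : ModularFormClass.qCoeff (0 : ℍ → ℂ) n = 0 := by
      simp [ModularFormClass.qCoeff, qExpansion_zero]
    rw [h0]
    rcases Nat.eq_zero_or_pos n with rfl | hn
    · -- the constant term is the value at infinity
      unfold ModularFormClass.qCoeff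
      rw [qExpansion_coeff_zero one_pos
        (analyticAt_cuspFunction_zero one_pos hper1 hhol hbdd) hper1]
      exact hzero.valueAtInfty_eq_zero
    · -- `p ^ n ∤ n`
      have hlt : n < p ^ n := Nat.lt_pow_self hp
      have hc : (0 : ℝ) < ((p : ℝ) ^ n)⁻¹ := inv_pos.mpr (pow_pos hp0 n)
      have key := UpperHalfPlane.qExpansion_coeff_nat_mul hc (hper n) hhol hbdd
        (M := p ^ n) (pow_pos (zero_lt_one.trans hp) n) n
      have h1 : ((p ^ n : ℕ) : ℝ) * ((p : ℝ) ^ n)⁻¹ = 1 := by
        push_cast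
        exact mul_inv_cancel₀ (pow_pos hp0 n).ne'
      rw [h1, if_neg (Nat.not_dvd_of_pos_of_lt hn hlt)] at key
      exact key

end Fermat.Agent.S48x.Nebentypus
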