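import Mathlib
import Fermat.Agent.S41.CSP.Sym

/-!
# P-S48 (DS0-c), nebentypus lemma, part 1: group theory in `SL(2, ℚ)`  (helper62)

For a prime `p ∤ N` let `A = Γ₁(N)` and `B = d A d⁻¹`, `d = diag(p, 1)`, both inside `SL(2, ℚ)`.
The subgroup `Δ = ⟨A, B⟩` contains all translations `[[1, p^{-r}], [0, 1]]`.

* `upperT_inv_prime_mem` : `[[1, 1/p], [0, 1]] ∈ Δ`  (conjugate `[[1,0],[N/p,1]] ∈ B` by a suitable
  element of `A`, clear the integral part, then Bezout);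
* `conjD_mem_Del1` : `Δ` is stable under conjugation by `d⁻¹`;
* `upperT_inv_prime_pow_mem` : `[[1, p^{-r}], [0, 1]] ∈ Δ` for all `r`.
-/

set_option autoImplicit false
set_option linter.unusedSimpArgs false

namespace Fermat.Agent.S48x.Nebentypus

open Matrix CongruenceSubgroup
open scoped MatrixGroups
open Fermat.Agent.S41.Ihara.Amalgam (castQ castQ_apply conjD conjD_00 conjD_01 conjD_10 conjD_11
  ext4 mkSL mkSL_00 mkSL_01 mkSL_10 mkSL_11 inv_apply_00 inv_apply_01 inv_apply_10 inv_apply_11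
  det_eq_one)
open Fermat.Agent.S41.CSP (upperT lowerT upperTHom mul_ap cnat cnat_00 cnat_01 cnat_10 cnat_11
  conjD_cnat cnat_conjD cnat_upperT cnat_lowerT upperT_add upperT_neg upperT_zero)

/-- `Γ₁(N)` inside `SL(2, ℚ)`. -/
def GA1 (N : ℕ) : Subgroup SL(2, ℚ) := (Gamma1 N).map castQ

/-- `d Γ₁(N) d⁻¹`, `d = diag(p, 1)`, inside `SL(2, ℚ)`. -/
def GB1 (N p : ℕ) [NeZero p] : Subgroup SL(2, ℚ) := (GA1 N).map (cnat p)

/-- The subgroup generated by `Γ₁(N)` and `d Γ₁(N) d⁻¹`. -/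
def Del1 (N p : ℕ) [NeZero p] : Subgroup SL(2, ℚ) := GA1 N ⊔ GB1 N p

theorem GA1_le_Del1 (N p : ℕ) [NeZero p] : GA1 N ≤ Del1 N p := le_sup_left

theorem GB1_le_Del1 (N p : ℕ) [NeZero p] : GB1 N p ≤ Del1 N p := le_sup_right

theorem mem_Gamma1_iff_dvd {N : ℕ} {γ : SL(2, ℤ)} :
    γ ∈ Gamma1 N ↔ (N : ℤ) ∣ γ 0 0 - 1 ∧ (N : ℤ) ∣ γ 1 1 - 1 ∧ (N : ℤ) ∣ γ 1 0 := by
  rw [Gamma1_mem, ← ZMod.intCast_zmod_eq_zero_iff_dvd, ← ZMod.intCast_zmod_eq_zero_iff_dvd,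
    ← ZMod.intCast_zmod_eq_zero_iff_dvd]
  push_cast
  rw [sub_eq_zero, sub_eq_zero]

/-- Membership in `GA1 N` from integral entries. -/
theorem mem_GA1_of_entries {N : ℕ} {g : SL(2, ℚ)} (a b c d : ℤ) (ha : (N : ℤ) ∣ a - 1)
    (hd : (N : ℤ) ∣ d - 1) (hc : (N : ℤ) ∣ c) (h00 : g 0 0 = a) (h01 : g 0 1 = b)
    (h10 : g 1 0 = c) (h11 : g 1 1 = d) : g ∈ GA1 N := by
  have hdet := det_eq_one g
  rw [h00, h01, h10, h11] at hdet
  have hdet' : a * d - b * c = 1 := by exact_mod_cast hdet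
  refine ⟨mkSL a b c d hdet', ?_, ?_⟩
  · rw [SetLike.mem_coe, mem_Gamma1_iff_dvd]
    exact ⟨by simpa using ha, by simpa using hd, by simpa using hc⟩
  · apply ext4 <;> simp [h00, h01, h10, h11]

theorem castQ_mem_GA1 {N : ℕ} {γ : SL(2, ℤ)} (hγ : γ ∈ Gamma1 N) : castQ γ ∈ GA1 N :=
  Subgroup.mem_map_of_mem _ hγ

theorem castQ_upperT (t : ℤ) : castQ (upperT t) = upperT (t : ℚ) := by
  apply ext4 <;> simp

theorem castQ_lowerT (t : ℤ) : castQ (lowerT t) = lowerT (t : ℚ) := by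
  apply ext4 <;> simp

theorem upperT_mem_Gamma1 (N : ℕ) (t : ℤ) : (upperT t : SL(2, ℤ)) ∈ Gamma1 N := by
  rw [mem_Gamma1_iff_dvd]
  simp

theorem lowerT_mem_Gamma1 (N : ℕ) (t : ℤ) : (lowerT ((N : ℤ) * t) : SL(2, ℤ)) ∈ Gamma1 N := by
  rw [mem_Gamma1_iff_dvd]
  simp

theorem upperT_intCast_mem_GA1 (N : ℕ) (t : ℤ) : upperT (t : ℚ) ∈ GA1 N := by
  rw [← castQ_upperT]
  exact castQ_mem_GA1 (upperT_mem_Gamma1 N t)

theorem conjD_upperT' (m : ℕ) [NeZero m] (t : ℚ) : conjD m (upperT t) = upperT (t / m) := by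
  apply ext4 <;> simp

theorem conjD_lowerT' (m : ℕ) [NeZero m] (t : ℚ) : conjD m (lowerT t) = lowerT (m * t) := by
  apply ext4 <;> simp

/-- Integer multiples of a translation in a subgroup stay in the subgroup. -/
theorem upperT_int_mul_mem {H : Subgroup SL(2, ℚ)} {t : ℚ} (h : upperT t ∈ H) (m : ℤ) :
    upperT ((m : ℚ) * t) ∈ H := by
  have h1 : upperT ((m : ℚ) * t) = (upperT t) ^ m := by
    have := map_zpow (upperTHom (A := ℚ)) (Multiplicative.ofAdd t) m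
    rw [← ofAdd_zsmul, zsmul_eq_mul] at this
    exact this
  rw [h1]
  exact Subgroup.zpow_mem _ h m

/-! ### Step 1: `[[1, 1/p], [0, 1]] ∈ Δ` -/

section Step1

variable {N p : ℕ} [NeZero p]

/-- `[[1, 0], [N / p, 1]] ∈ d Γ₁(N) d⁻¹`. -/
theorem lowerT_div_mem_GB1 : lowerT ((N : ℚ) / p) ∈ GB1 N p := by
  refine ⟨lowerT (N : ℚ), ?_, cnat_lowerT p _⟩
  have : (lowerT ((N : ℤ) * 1) : SL(2, ℤ)) ∈ Gamma1 N := lowerT_mem_Gamma1 N 1
  have h2 := castQ_mem_GA1 this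
  rw [castQ_lowerT] at h2
  simpa using h2

/-- The key identity: with `u N + v p² = 1`, `g₀ = [[v p², -u], [N, 1]] ∈ Γ₁(N)`,
`x = - N u² / p`, one has `[[1,0],[N/p,1]] g₀ = g₀ [[1,x],[0,1]] γ₁` with `γ₁ ∈ Γ₁(N)`. -/
theorem upperT_bezout_mem (u v : ℤ) (huv : u * N + v * (p : ℤ) ^ 2 = 1) :
    upperT (-((N : ℚ) * (u : ℚ) ^ 2 / p)) ∈ Del1 N p := by
  have hp : (p : ℚ) ≠ 0 := Nat.cast_ne_zero.mpr (NeZero.ne p)
  have huvQ : (u : ℚ) * N + v * (p : ℚ) ^ 2 = 1 := by exact_mod_cast huv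
  -- g₀
  have hg0det : (v * (p : ℤ) ^ 2) * 1 - (-u) * (N : ℤ) = 1 := by linarith
  set g0 : SL(2, ℤ) := mkSL (v * (p : ℤ) ^ 2) (-u) N 1 hg0det with hg0
  have hg0mem : g0 ∈ Gamma1 N := by
    rw [mem_Gamma1_iff_dvd]
    refine ⟨⟨-u, ?_⟩, by simp [hg0], by simp [hg0]⟩
    simp only [hg0, mkSL_00]
    linarith
  -- γ₁
  have hg1det : (1 + (N : ℤ) * v * p * u + (N : ℤ) ^ 2 * u ^ 2 * v ^ 2 * (p : ℤ) ^ 2) *
      (1 - (N : ℤ) * v * p * u) - (-((N : ℤ) ^ 2 * u ^ 3 * v)) * ((N : ℤ) * v ^ 2 * (p : ℤ) ^ 3)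
      = 1 := by ring
  set g1 : SL(2, ℤ) := mkSL (1 + (N : ℤ) * v * p * u + (N : ℤ) ^ 2 * u ^ 2 * v ^ 2 * (p : ℤ) ^ 2)
    (-((N : ℤ) ^ 2 * u ^ 3 * v)) ((N : ℤ) * v ^ 2 * (p : ℤ) ^ 3) (1 - (N : ℤ) * v * p * u) hg1det
    with hg1
  have hg1mem : g1 ∈ Gamma1 N := by
    rw [mem_Gamma1_iff_dvd]
    refine ⟨⟨v * p * u + N * u ^ 2 * v ^ 2 * (p : ℤ) ^ 2, ?_⟩, ⟨-(v * p * u), ?_⟩,
      ⟨v ^ 2 * (p : ℤ) ^ 3, ?_⟩⟩
    · simp only [hg1, mkSL_00]; ring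
    · simp only [hg1, mkSL_11]; ring
    · simp only [hg1, mkSL_10]; ring
  set x : ℚ := -((N : ℚ) * (u : ℚ) ^ 2 / p) with hx
  have key : lowerT ((N : ℚ) / p) * castQ g0 = castQ g0 * upperT x * castQ g1 := by
    apply ext4
    · simp only [mul_ap, castQ_apply, hg0, hg1, hx, mkSL_00, mkSL_01, mkSL_10, mkSL_11]
      simp
      field_simp
      ring
    · simp only [mul_ap, castQ_apply, hg0, hg1, hx, mkSL_00, mkSL_01, mkSL_10, mkSL_11]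
      simp
      field_simp
      ring
    · simp only [mul_ap, castQ_apply, hg0, hg1, hx, mkSL_00, mkSL_01, mkSL_10, mkSL_11]
      simp
      field_simp
      linear_combination (-(N : ℚ) * v * p) * huvQ
    · simp only [mul_ap, castQ_apply, hg0, hg1, hx, mkSL_00, mkSL_01, mkSL_10, mkSL_11]
      simp
      field_simp
      linear_combination ((N : ℚ) * u) * huvQ
  have hx_eq : upperT x = (castQ g0)⁻¹ * lowerT ((N : ℚ) / p) * castQ g0 * (castQ g1)⁻¹ := by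
    rw [mul_assoc _ (lowerT _), key]
    group
  rw [hx_eq]
  have hA0 : castQ g0 ∈ Del1 N p := GA1_le_Del1 N p (castQ_mem_GA1 hg0mem)
  have hA1 : castQ g1 ∈ Del1 N p := GA1_le_Del1 N p (castQ_mem_GA1 hg1mem)
  have hB : lowerT ((N : ℚ) / p) ∈ Del1 N p := GB1_le_Del1 N p lowerT_div_mem_GB1
  exact Subgroup.mul_mem _ (Subgroup.mul_mem _ (Subgroup.mul_mem _ (Subgroup.inv_mem _ hA0) hB)
    hA0) (Subgroup.inv_mem _ hA1)

/-- `[[1, 1/p], [0, 1]] ∈ Δ` for a prime `p ∤ N`. -/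
theorem upperT_inv_prime_mem (hp : p.Prime) (hpN : ¬ p ∣ N) :
    upperT ((p : ℚ)⁻¹) ∈ Del1 N p := by
  have hp0 : (p : ℚ) ≠ 0 := Nat.cast_ne_zero.mpr (NeZero.ne p)
  have hcop : IsCoprime (N : ℤ) (p : ℤ) :=
    Nat.isCoprime_iff_coprime.mpr ((Nat.Prime.coprime_iff_not_dvd hp).mpr hpN).symm
  obtain ⟨u, v, huv⟩ : IsCoprime (N : ℤ) ((p : ℤ) ^ 2) := hcop.pow_right
  -- `u * N + v * p ^ 2 = 1`
  have h1 := upperT_bezout_mem (N := N) (p := p) u v huv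
  have hcopu : IsCoprime u (p : ℤ) := ⟨N, v * p, by linarith⟩
  obtain ⟨m, n, hmn⟩ : IsCoprime ((N : ℤ) * u ^ 2) (p : ℤ) := hcop.mul_left hcopu.pow_left
  -- `m * (N u²) + n * p = 1`
  have hmnQ : (m : ℚ) * ((N : ℚ) * (u : ℚ) ^ 2) + n * p = 1 := by exact_mod_cast hmn
  have h2 := upperT_int_mul_mem h1 (-m)
  have h3 : upperT ((n : ℚ)) ∈ Del1 N p := GA1_le_Del1 N p (upperT_intCast_mem_GA1 N n)
  have h4 := Subgroup.mul_mem _ h2 h3
  rw [← upperT_add] at h4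
  have h5 : ((-m : ℤ) : ℚ) * -((N : ℚ) * (u : ℚ) ^ 2 / p) + n = (p : ℚ)⁻¹ := by
    push_cast
    field_simp
    linear_combination hmnQ
  rwa [h5] at h4

end Step1

/-! ### Step 2: `Δ` is stable under conjugation by `d⁻¹` -/

section Step2

variable {N p : ℕ} [NeZero p]

/-- If `p` divides the upper right entry of `γ ∈ Γ₁(N)`, then `d⁻¹ γ d ∈ Γ₁(N)`. -/
theorem conjD_castQ_mem_GA1_of_dvd {γ : SL(2, ℤ)} (hγ : γ ∈ Gamma1 N) (hb : (p : ℤ) ∣ γ 0 1) :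
    conjD p (castQ γ) ∈ GA1 N := by
  have hp0 : (p : ℚ) ≠ 0 := Nat.cast_ne_zero.mpr (NeZero.ne p)
  obtain ⟨b', hb'⟩ := hb
  obtain ⟨h00, h11, h10⟩ := mem_Gamma1_iff_dvd.mp hγ
  refine mem_GA1_of_entries (γ 0 0) b' ((p : ℤ) * γ 1 0) (γ 1 1) h00 h11
    (Dvd.dvd.mul_left h10 _) ?_ ?_ ?_ ?_
  · simp
  · rw [conjD_01, castQ_apply, hb']
    push_cast
    field_simp
  · simp
  · simp

/-- If `p` does not divide the lower right entry of `γ ∈ Γ₁(N)`, then `d⁻¹ γ d ∈ Δ`. -/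
theorem conjD_castQ_mem_Del1_of_not_dvd (hp : p.Prime) (hpN : ¬ p ∣ N) {γ : SL(2, ℤ)}
    (hγ : γ ∈ Gamma1 N) (hd : ¬ (p : ℤ) ∣ γ 1 1) : conjD p (castQ γ) ∈ Del1 N p := by
  have hp0 : (p : ℚ) ≠ 0 := Nat.cast_ne_zero.mpr (NeZero.ne p)
  have hpZ : Prime (p : ℤ) := Nat.prime_iff_prime_int.mp hp
  have hcop : IsCoprime (γ 1 1) (p : ℤ) :=
    (Prime.coprime_iff_not_dvd hpZ).mpr hd |>.symm
  obtain ⟨x, y, hxy⟩ := hcop
  -- `x * d + y * p = 1`; take `m = b x`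
  set m : ℤ := γ 0 1 * x with hm
  set γ' : SL(2, ℤ) := upperT (-m) * γ with hγ'
  have hγ'mem : γ' ∈ Gamma1 N := Subgroup.mul_mem _ (upperT_mem_Gamma1 N _) hγ
  have hb' : (p : ℤ) ∣ γ' 0 1 := by
    refine ⟨γ 0 1 * y, ?_⟩
    have : γ' 0 1 = γ 0 1 + (-m) * γ 1 1 := by
      rw [hγ', Matrix.SpecialLinearGroup.coe_mul, Matrix.mul_apply, Fin.sum_univ_two]
      simp
    rw [this, hm]
    linear_combination (-(γ 0 1)) * hxy
  have h1 := conjD_castQ_mem_GA1_of_dvd hγ'mem hb'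
  have h2 : castQ γ = upperT (m : ℚ) * castQ γ' := by
    rw [hγ', map_mul, castQ_upperT, ← mul_assoc, ← upperT_add]
    push_cast
    rw [add_neg_cancel, upperT_zero, one_mul]
  rw [h2, map_mul, conjD_upperT']
  refine Subgroup.mul_mem _ ?_ (GA1_le_Del1 N p h1)
  have h3 := upperT_int_mul_mem (upperT_inv_prime_mem (N := N) hp hpN) m
  rwa [← div_eq_mul_inv] at h3

/-- `d⁻¹ Γ₁(N) d ⊆ Δ`. -/
theorem conjD_castQ_mem_Del1 (hp : p.Prime) (hpN : ¬ p ∣ N) {γ : SL(2, ℤ)}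
    (hγ : γ ∈ Gamma1 N) : conjD p (castQ γ) ∈ Del1 N p := by
  by_cases hd : (p : ℤ) ∣ γ 1 1
  · -- replace `γ` by `lowerT N * γ`
    have hpZ : Prime (p : ℤ) := Nat.prime_iff_prime_int.mp hp
    set γ' : SL(2, ℤ) := lowerT ((N : ℤ) * 1) * γ with hγ'
    have hγ'mem : γ' ∈ Gamma1 N := Subgroup.mul_mem _ (lowerT_mem_Gamma1 N 1) hγ
    have h11 : γ' 1 1 = (N : ℤ) * γ 0 1 + γ 1 1 := by
      rw [hγ', Matrix.SpecialLinearGroup.coe_mul, Matrix.mul_apply, Fin.sum_univ_two]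
      simp
    have hd' : ¬ (p : ℤ) ∣ γ' 1 1 := by
      intro h
      rw [h11] at h
      have h1 : (p : ℤ) ∣ (N : ℤ) * γ 0 1 := (dvd_add_left hd).mp h
      have h2 : (p : ℤ) ∣ γ 0 1 := by
        rcases hpZ.dvd_or_dvd h1 with h3 | h3
        · exact absurd (Int.natCast_dvd_natCast.mp h3) hpN
        · exact h3
      have hdet : γ 0 0 * γ 1 1 - γ 0 1 * γ 1 0 = 1 := by
        have := γ.det_coe
        rwa [Matrix.det_fin_two] at this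
      have h3 : (p : ℤ) ∣ 1 := by
        rw [← hdet]
        exact dvd_sub (Dvd.dvd.mul_left hd _) (Dvd.dvd.mul_right h2 _)
      exact hpZ.not_dvd_one h3
    have h1 := conjD_castQ_mem_Del1_of_not_dvd hp hpN hγ'mem hd'
    have h2 : castQ γ = castQ (lowerT (-((N : ℤ) * 1))) * castQ γ' := by
      rw [hγ', ← map_mul, ← mul_assoc, Fermat.Agent.S41.CSP.lowerT_neg, inv_mul_cancel, one_mul]
    rw [h2, map_mul]
    refine Subgroup.mul_mem _ (GA1_le_Del1 N p ?_) h1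
    have hmem : (lowerT (-((N : ℤ) * 1)) : SL(2, ℤ)) ∈ Gamma1 N := by
      have := lowerT_mem_Gamma1 N (-1)
      rwa [mul_neg] at this
    exact conjD_castQ_mem_GA1_of_dvd hmem (by simp)
  · exact conjD_castQ_mem_Del1_of_not_dvd hp hpN hγ hd

/-- `Δ` is stable under conjugation by `d⁻¹`. -/
theorem conjD_mem_Del1 (hp : p.Prime) (hpN : ¬ p ∣ N) {g : SL(2, ℚ)} (hg : g ∈ Del1 N p) :
    conjD p g ∈ Del1 N p := by
  have hle : Del1 N p ≤ (Del1 N p).comap (conjD p) := by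
    refine sup_le ?_ ?_
    · rintro _ ⟨γ, hγ, rfl⟩
      exact conjD_castQ_mem_Del1 hp hpN hγ
    · rintro _ ⟨a, ha, rfl⟩
      show conjD p (cnat p a) ∈ Del1 N p
      rw [conjD_cnat]
      exact GA1_le_Del1 N p ha
  exact hle hg

/-- `[[1, p^{-r}], [0, 1]] ∈ Δ` for all `r`. -/
theorem upperT_inv_prime_pow_mem (hp : p.Prime) (hpN : ¬ p ∣ N) (r : ℕ) :
    upperT (((p : ℚ) ^ r)⁻¹) ∈ Del1 N p := by
  induction r with
  | zero =>
    have := GA1_le_Del1 N p (upperT_intCast_mem_GA1 N 1)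
    simpa using this
  | succ r ih =>
    have h := conjD_mem_Del1 hp hpN ih
    rw [conjD_upperT'] at h
    have : ((p : ℚ) ^ r)⁻¹ / p = ((p : ℚ) ^ (r + 1))⁻¹ := by
      rw [pow_succ, mul_inv, div_eq_mul_inv]
    rwa [this] at h

end Step2

end Fermat.Agent.S48x.Nebentypus
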