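import Mathlib
import Fermat.Prelude.Def_ModularForm_HeckeOperator
import Fermat.Agent.S48x.Nebentypus.Group
import Fermat.Agent.S48x.Nebentypus.Analysis

/-!
# P-S48 (DS0-c), nebentypus lemma, part 3: from the group theory to functions  (helper62)

`eq_zero_of_slash_invariant`: if `h : ℍ → ℂ` is holomorphic, zero at `i∞`, invariant of weight `k`
under `Γ₁(N)`, and `h ∣[k] diag(p, 1)` is invariant under `Γ₁(N)` too (`p ∤ N` prime), then
`h = 0`.
-/

set_option autoImplicit false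
set_option linter.unnecessarySeqFocus false

namespace Fermat.Agent.S48x.Nebentypus

open Matrix CongruenceSubgroup UpperHalfPlane Matrix.SpecialLinearGroup
open scoped MatrixGroups ModularForm Manifold
open Fermat.Agent.S41.Ihara.Amalgam (castQ castQ_apply)
open Fermat.Agent.S41.CSP (upperT cnat cnat_00 cnat_01 cnat_10 cnat_11)

/-- The stabiliser of `h` under the weight `k` slash action. -/
def slashStab (k : ℤ) (h : ℍ → ℂ) : Subgroup (GL (Fin 2) ℝ) where
  carrier := {M | h ∣[k] M = h}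
  one_mem' := SlashAction.slash_one k h
  mul_mem' := by
    intro a b ha hb
    show h ∣[k] (a * b) = h
    rw [SlashAction.slash_mul, ha, hb]
  inv_mem' := by
    intro a ha
    show h ∣[k] a⁻¹ = h
    have h1 : h ∣[k] a⁻¹ = (h ∣[k] a) ∣[k] a⁻¹ := by rw [ha]
    rw [h1, ← SlashAction.slash_mul, mul_inv_cancel, SlashAction.slash_one]

theorem mem_slashStab {k : ℤ} {h : ℍ → ℂ} {M : GL (Fin 2) ℝ} :
    M ∈ slashStab k h ↔ h ∣[k] M = h := Iff.rfl

/-- The inclusion `SL(2, ℚ) → GL(2, ℝ)`. -/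
noncomputable def iotaR : SL(2, ℚ) →* GL (Fin 2) ℝ := mapGL ℝ

theorem iotaR_apply (g : SL(2, ℚ)) (i j : Fin 2) :
    (iotaR g : GL (Fin 2) ℝ) i j = ((g i j : ℚ) : ℝ) := by
  simp [iotaR, mapGL_coe_matrix]

theorem iotaR_castQ (γ : SL(2, ℤ)) : iotaR (castQ γ) = mapGL ℝ γ := by
  apply Matrix.GeneralLinearGroup.ext
  intro i j
  rw [iotaR_apply, castQ_apply]
  simp [mapGL_coe_matrix]

theorem iotaR_cnat_mul {p : ℕ} [NeZero p] (g : SL(2, ℚ)) :
    iotaR (cnat p g) * ModularForm.heckeDiagMatrix p = ModularForm.heckeDiagMatrix p * iotaR g := by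
  have hp : p ≠ 0 := NeZero.ne p
  have hpR : (p : ℝ) ≠ 0 := Nat.cast_ne_zero.mpr hp
  apply Matrix.GeneralLinearGroup.ext
  intro i j
  rw [Matrix.GeneralLinearGroup.coe_mul, Matrix.GeneralLinearGroup.coe_mul,
    ModularForm.val_heckeDiagMatrix hp, Matrix.mul_apply, Matrix.mul_apply, Fin.sum_univ_two,
    Fin.sum_univ_two]
  fin_cases i <;> fin_cases j <;> simp [iotaR_apply] <;> field_simp

theorem det_iotaR (g : SL(2, ℚ)) : ((iotaR g).det : ℝ) = 1 := by
  simp [iotaR]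

/-- Slashing with a rational translation is translating. -/
theorem slash_iotaR_upperT (k : ℤ) (h : ℍ → ℂ) (t : ℚ) (τ : ℍ) :
    (h ∣[k] iotaR (upperT t)) τ = h (((t : ℚ) : ℝ) +ᵥ τ) := by
  have hdet : (0 : ℝ) < ((iotaR (upperT t)).det : ℝ) := by rw [det_iotaR]; exact one_pos
  have hσ : UpperHalfPlane.σ (iotaR (upperT t)) = .refl ℝ ℂ := by
    rw [UpperHalfPlane.σ, if_pos hdet]
  have hden : denom (iotaR (upperT t)) τ = 1 := by
    simp [denom, iotaR_apply]
  have hsmul : iotaR (upperT t) • τ = ((t : ℚ) : ℝ) +ᵥ τ := by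
    apply UpperHalfPlane.ext
    rw [UpperHalfPlane.coe_smul_of_det_pos hdet, hden]
    simp [num, iotaR_apply, add_comm]
  rw [ModularForm.slash_apply, hσ, hden, det_iotaR, hsmul]
  simp

/-- **Main lemma of the nebentypus package**: `S_k(Γ₁(N)) ∩ V_p S_k(Γ₁(N)) = 0` for `p ∤ N`, on
the level of functions. -/
theorem eq_zero_of_slash_invariant {N p : ℕ} (hp : p.Prime) (hpN : ¬ p ∣ N) (k : ℤ)
    {h : ℍ → ℂ} (hhol : MDiff h) (hzero : IsZeroAtImInfty h)
    (h1 : ∀ γ ∈ Gamma1 N, h ∣[k] (mapGL ℝ γ : GL (Fin 2) ℝ) = h)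
    (h2 : ∀ γ ∈ Gamma1 N, (h ∣[k] ModularForm.heckeDiagMatrix p) ∣[k] (mapGL ℝ γ : GL (Fin 2) ℝ) =
      h ∣[k] ModularForm.heckeDiagMatrix p) : h = 0 := by
  have : NeZero p := ⟨hp.ne_zero⟩
  have hle : Del1 N p ≤ (slashStab k h).comap iotaR := by
    refine sup_le ?_ ?_
    · rintro _ ⟨γ, hγ, rfl⟩
      show iotaR (castQ γ) ∈ slashStab k h
      rw [iotaR_castQ]
      exact h1 γ hγ
    · rintro _ ⟨_, ⟨γ, hγ, rfl⟩, rfl⟩
      show iotaR (cnat p (castQ γ)) ∈ slashStab k h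
      have e : iotaR (cnat p (castQ γ)) =
          ModularForm.heckeDiagMatrix p * mapGL ℝ γ * (ModularForm.heckeDiagMatrix p)⁻¹ := by
        rw [eq_mul_inv_iff_mul_eq, iotaR_cnat_mul, iotaR_castQ]
      rw [e, mem_slashStab, SlashAction.slash_mul, SlashAction.slash_mul, h2 γ hγ,
        ← SlashAction.slash_mul, mul_inv_cancel, SlashAction.slash_one]
  refine eq_zero_of_periodic_pow_inv hhol hzero hp.one_lt fun r => ?_
  have hmem := hle (upperT_inv_prime_pow_mem hp hpN r)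
  have hinv : h ∣[k] iotaR (upperT (((p : ℚ) ^ r)⁻¹)) = h := hmem
  have hc : ∀ τ : ℍ, h ((((p : ℝ) ^ r)⁻¹ : ℝ) +ᵥ τ) = h τ := by
    intro τ
    have := congrFun hinv τ
    rw [slash_iotaR_upperT] at this
    rw [← this]
    congr 2
    push_cast
    rfl
  exact periodic_comp_ofComplex_of_vadd hc

end Fermat.Agent.S48x.Nebentypus
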