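import Mathlib
import Fermat.Prelude.Thm_UpperHalfPlane_qCoeff_heckeT
import Fermat.Prelude.Thm_UpperHalfPlane_qCoeff_heckeU
import Fermat.Prelude.Thm_UpperHalfPlane_eq_of_forall_qCoeff_eq
import Fermat.Prelude.Thm_ModularForm_periodic_heckeT_comp_ofComplex
import Fermat.Prelude.Thm_ModularForm_periodic_heckeU_comp_ofComplex
import Fermat.Prelude.Thm_ModularForm_mdifferentiable_heckeT
import Fermat.Prelude.Thm_ModularForm_mdifferentiable_heckeU
import Fermat.Prelude.Thm_ModularForm_isBoundedAtImInfty_heckeT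
import Fermat.Prelude.Thm_ModularForm_isBoundedAtImInfty_heckeU
import Fermat.Agent.S48x.Nebentypus.Bridge
import Fermat.Agent.S48x.Nebentypus.Hecke

/-!
# P-S48 (DS0-c): the nebentypus of a weight one form with formal Hecke relations  (helper62)

The frozen statement S48 starts from `f ∈ S₁(Γ₁(N))` and the FORMAL coefficient relations
`a_{pn} + ε(p) a_{n/p} = a_p a_n` (`p ∤ N`).  This file proves that `f` has nebentypus `ε`:

* `slash_eq_eps_smul` : `f ∣[1] g = ε(d_g) • f` for all `g ∈ Γ₀(N)`  (`d_g` the lower right entry);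
* `eps_neg_one` : `ε(-1) = -1` if moreover `f ≠ 0`.
-/

set_option autoImplicit false
set_option linter.unusedSectionVars false

namespace Fermat.Agent.S48x.Nebentypus

open CongruenceSubgroup Matrix.SpecialLinearGroup UpperHalfPlane Function
open scoped MatrixGroups ModularForm Manifold

/-- Functions with a good `q`-expansion at `∞`: period `1`, holomorphic, bounded at `i∞`. -/
structure Nice (F : ℍ → ℂ) : Prop where
  per : Periodic (F ∘ ofComplex) 1
  hol : MDiff F
  bdd : IsBoundedAtImInfty F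

namespace Nice

variable {F G : ℍ → ℂ}

theorem analytic (hF : Nice F) : AnalyticAt ℂ (cuspFunction 1 F) 0 :=
  analyticAt_cuspFunction_zero one_pos (by simpa using hF.per) hF.hol hF.bdd

theorem add (hF : Nice F) (hG : Nice G) : Nice (F + G) where
  per := by
    intro w
    have h1 := hF.per w
    have h2 := hG.per w
    simp only [comp_apply, Pi.add_apply] at h1 h2 ⊢
    rw [h1, h2]
  hol := hF.hol.add hG.hol
  bdd := hF.bdd.add hG.bdd

theorem smul (hF : Nice F) (c : ℂ) : Nice (c • F) where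
  per := by
    intro w
    have h1 := hF.per w
    simp only [comp_apply, Pi.smul_apply] at h1 ⊢
    rw [h1]
  hol := hF.hol.const_smul c
  bdd := hF.bdd.const_smul_left c

theorem qCoeff_add (hF : Nice F) (hG : Nice G) (n : ℕ) :
    ModularFormClass.qCoeff (F + G) n =
      ModularFormClass.qCoeff F n + ModularFormClass.qCoeff G n := by
  unfold ModularFormClass.qCoeff
  rw [qExpansion_add hF.analytic hG.analytic, map_add]

theorem qCoeff_smul (hF : Nice F) (c : ℂ) (n : ℕ) :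
    ModularFormClass.qCoeff (c • F) n = c * ModularFormClass.qCoeff F n := by
  unfold ModularFormClass.qCoeff
  rw [qExpansion_smul hF.analytic, PowerSeries.coeff_smul, smul_eq_mul]

theorem heckeU (hF : Nice F) (k : ℤ) (p : ℕ) : Nice (ModularForm.heckeU k p F) where
  per := ModularForm.periodic_heckeU_comp_ofComplex hF.per k p
  hol := ModularForm.mdifferentiable_heckeU hF.hol k p
  bdd := ModularForm.isBoundedAtImInfty_heckeU hF.bdd k p

theorem heckeT (hF : Nice F) (k : ℤ) (p : ℕ) : Nice (ModularForm.heckeT k p F) where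
  per := ModularForm.periodic_heckeT_comp_ofComplex hF.per k p
  hol := ModularForm.mdifferentiable_heckeT hF.hol k p
  bdd := ModularForm.isBoundedAtImInfty_heckeT hF.bdd k p

theorem ext_qCoeff (hF : Nice F) (hG : Nice G)
    (h : ∀ n, ModularFormClass.qCoeff F n = ModularFormClass.qCoeff G n) : F = G :=
  UpperHalfPlane.eq_of_forall_qCoeff_eq hF.per hF.hol hF.bdd hG.per hG.hol hG.bdd h

end Nice

/-- The formal weight one Hecke relation at `p` gives the identity of functions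
`U_p F + c • V_p F = a • F`. -/
theorem heckeU_add_smul_diag_eq {F : ℍ → ℂ} (hF : Nice F) {p : ℕ} (hp0 : p ≠ 0) (c a : ℂ)
    (hrel : ∀ n : ℕ, ModularFormClass.qCoeff F (p * n) +
      c * (if p ∣ n then ModularFormClass.qCoeff F (n / p) else 0) =
        a * ModularFormClass.qCoeff F n) :
    ModularForm.heckeU 1 p F + c • (F ∣[(1 : ℤ)] ModularForm.heckeDiagMatrix p) = a • F := by
  have hV : F ∣[(1 : ℤ)] ModularForm.heckeDiagMatrix p =
      ModularForm.heckeT 1 p F + (-1 : ℂ) • ModularForm.heckeU 1 p F := by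
    rw [ModularForm.heckeT_eq_heckeU_add]
    ext τ
    simp
  have hW : ModularForm.heckeU 1 p F + c • (F ∣[(1 : ℤ)] ModularForm.heckeDiagMatrix p) =
      (1 - c) • ModularForm.heckeU 1 p F + c • ModularForm.heckeT 1 p F := by
    rw [hV]
    ext τ
    simp only [Pi.add_apply, Pi.smul_apply, smul_eq_mul]
    ring
  rw [hW]
  refine Nice.ext_qCoeff (((hF.heckeU 1 p).smul _).add ((hF.heckeT 1 p).smul _)) (hF.smul a) ?_
  intro n
  rw [Nice.qCoeff_add ((hF.heckeU 1 p).smul _) ((hF.heckeT 1 p).smul _),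
    Nice.qCoeff_smul (hF.heckeU 1 p), Nice.qCoeff_smul (hF.heckeT 1 p), Nice.qCoeff_smul hF,
    UpperHalfPlane.qCoeff_heckeU hF.per hF.hol hF.bdd 1 hp0,
    UpperHalfPlane.qCoeff_heckeT hF.per hF.hol hF.bdd 1 hp0, ModularForm.coeffHeckeU_apply,
    ModularForm.coeffHeckeT_apply, ← hrel n, mul_comm n p]
  simp only [sub_self, zpow_zero, one_mul]
  ring

section Final

variable {N : ℕ} [NeZero N]

theorem one_mem_strictPeriods_Gamma1 :
    (1 : ℝ) ∈ (Gamma1 N : Subgroup (GL (Fin 2) ℝ)).strictPeriods := by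
  rw [strictPeriods_Gamma1]
  exact AddSubgroup.mem_zmultiples 1

theorem nice_cuspForm (f : CuspForm (Gamma1 N) 1) : Nice (⇑f) where
  per := by
    have := SlashInvariantFormClass.periodic_comp_ofComplex f
      (one_mem_strictPeriods_Gamma1 (N := N))
    simpa using this
  hol := ModularFormClass.holo f
  bdd := ModularFormClass.bdd_at_infty f

theorem slash_Gamma1 (f : CuspForm (Gamma1 N) 1) (γ : SL(2, ℤ)) (hγ : γ ∈ Gamma1 N) :
    (⇑f) ∣[(1 : ℤ)] (mapGL ℝ γ : GL (Fin 2) ℝ) = ⇑f :=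
  SlashInvariantForm.slash_action_eqn f _ (Subgroup.mem_map_of_mem (mapGL ℝ) hγ)

/-- The prime case: if `σ ∈ Γ₀(N)` has lower right entry `≡ p mod N`, `p ∤ N` prime, and the
formal Hecke relation holds at `p`, then `f ∣ σ = ε(p) f`. -/
theorem slash_eq_smul_of_prime (f : CuspForm (Gamma1 N) 1) {p : ℕ} (hp : p.Prime) (hpN : ¬ p ∣ N)
    (c : ℂ)
    (hrel : ∀ n : ℕ, ModularFormClass.qCoeff f (p * n) +
      c * (if p ∣ n then ModularFormClass.qCoeff f (n / p) else 0) =
        ModularFormClass.qCoeff f p * ModularFormClass.qCoeff f n)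
    {σ : SL(2, ℤ)} (hσ : σ ∈ Gamma0 N) (hσp : ((σ 1 1 : ℤ) : ZMod N) = (p : ZMod N)) :
    (⇑f) ∣[(1 : ℤ)] (mapGL ℝ σ : GL (Fin 2) ℝ) = c • ⇑f := by
  have : Fact p.Prime := ⟨hp⟩
  have hF := nice_cuspForm f
  have hinv := slash_Gamma1 f
  set F : ℍ → ℂ := ⇑f with hFdef
  set D := ModularForm.heckeDiagMatrix p with hD
  have hσD : UpperHalfPlane.σ D = .refl ℝ ℂ := ModularForm.σ_heckeDiagMatrix p
  -- the function `h = F ∣ σ - c F`
  set h : ℍ → ℂ := F ∣[(1 : ℤ)] (mapGL ℝ σ : GL (Fin 2) ℝ) + (-c) • F with hh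
  have hσslash : ∀ (A : SL(2, ℤ)) (G : ℍ → ℂ) (a : ℂ),
      (a • G) ∣[(1 : ℤ)] (mapGL ℝ A : GL (Fin 2) ℝ) =
        a • (G ∣[(1 : ℤ)] (mapGL ℝ A : GL (Fin 2) ℝ)) := by
    intro A G a
    exact ModularForm.SL_smul_slash 1 A G a
  -- invariance of `F ∣ σ` under `Γ₁(N)`
  have hFσ : ∀ γ ∈ Gamma1 N, (F ∣[(1 : ℤ)] (mapGL ℝ σ : GL (Fin 2) ℝ)) ∣[(1 : ℤ)]
      (mapGL ℝ γ : GL (Fin 2) ℝ) = F ∣[(1 : ℤ)] (mapGL ℝ σ : GL (Fin 2) ℝ) := by
    intro γ hγ
    rw [← SlashAction.slash_mul, ← map_mul]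
    refine slash_eq_of_lowerRight_eq 1 hinv
      (Subgroup.mul_mem _ hσ (Gamma1_in_Gamma0 N hγ)) hσ ?_
    rw [lowerRight_mul hσ, ((Gamma1_mem N γ).mp hγ).2.1, mul_one]
  have h1 : ∀ γ ∈ Gamma1 N, h ∣[(1 : ℤ)] (mapGL ℝ γ : GL (Fin 2) ℝ) = h := by
    intro γ hγ
    rw [hh, SlashAction.add_slash, hFσ γ hγ, hσslash, hinv γ hγ]
  -- `h ∣ D = T_p F - a_p F`
  have key := heckeU_add_smul_diag_eq hF hp.ne_zero c (ModularFormClass.qCoeff F p) hrel
  have hhD : h ∣[(1 : ℤ)] D =
      twistedHecke p 1 σ F + (-(ModularFormClass.qCoeff F p)) • F := by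
    rw [hh, SlashAction.add_slash, ModularForm.smul_slash, hσD, ContinuousAlgEquiv.refl_apply,
      twistedHecke]
    ext τ
    have keyτ := congrFun key τ
    rw [← hD] at keyτ
    simp only [Pi.add_apply, Pi.smul_apply, smul_eq_mul] at keyτ ⊢
    linear_combination (-1 : ℂ) * keyτ
  have h2 : ∀ γ ∈ Gamma1 N, (h ∣[(1 : ℤ)] D) ∣[(1 : ℤ)] (mapGL ℝ γ : GL (Fin 2) ℝ) =
      h ∣[(1 : ℤ)] D := by
    intro γ hγ
    rw [hhD, SlashAction.add_slash, twistedHecke_slash_eq N p hpN 1 hσ hσp hinv γ hγ, hσslash,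
      hinv γ hγ]
  -- analytic properties of `h`
  have hhol : MDiff h := (hF.hol.slash 1 _).add (hF.hol.const_smul (-c))
  have hzero : IsZeroAtImInfty h := by
    have z1 : IsZeroAtImInfty (F ∣[(1 : ℤ)] (mapGL ℝ σ : GL (Fin 2) ℝ)) :=
      CuspFormClass.zero_at_infty_slash f σ
    have z2 : IsZeroAtImInfty F := CuspFormClass.zero_at_infty f
    exact z1.add (z2.smul (-c))
  have hzero' := eq_zero_of_slash_invariant hp hpN 1 hhol hzero h1 h2
  have := congrArg (fun G => G + c • F) hzero'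
  simp only [hh, zero_add] at this
  rw [← this]
  ext τ
  simp

/-- **Nebentypus**: a weight one cusp form on `Γ₁(N)` satisfying the formal Hecke relations of the
frozen statement S48 with respect to `ε` has nebentypus character `ε`. -/
theorem slash_eq_eps_smul (ε : DirichletCharacter ℂ N) (f : CuspForm (Gamma1 N) 1)
    (hT : ∀ p : ℕ, p.Prime → ¬ p ∣ N → ∀ n : ℕ,
        ModularFormClass.qCoeff f (p * n) +
            ε (p : ZMod N) * (if p ∣ n then ModularFormClass.qCoeff f (n / p) else 0) =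
          ModularFormClass.qCoeff f p * ModularFormClass.qCoeff f n)
    (g : SL(2, ℤ)) (hg : g ∈ Gamma0 N) :
    (⇑f) ∣[(1 : ℤ)] (mapGL ℝ g : GL (Fin 2) ℝ) = ε ((g 1 1 : ℤ) : ZMod N) • ⇑f := by
  have hunit : IsUnit (((g 1 1 : ℤ)) : ZMod N) :=
    IsUnit.of_mul_eq_one _ (by rw [mul_comm]; exact upperLeft_mul_lowerRight hg)
  obtain ⟨p, hpgt, hp, hpd⟩ := Nat.forall_exists_prime_gt_and_eq_mod hunit N
  have hpN : ¬ p ∣ N := Nat.not_dvd_of_pos_of_lt (Nat.pos_of_ne_zero (NeZero.ne N)) hpgt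
  rw [← hpd]
  exact slash_eq_smul_of_prime f hp hpN _ (hT p hp hpN) hg hpd.symm

/-- The same with the `SL(2, ℤ)` slash action. -/
theorem SL_slash_eq_eps_smul (ε : DirichletCharacter ℂ N) (f : CuspForm (Gamma1 N) 1)
    (hT : ∀ p : ℕ, p.Prime → ¬ p ∣ N → ∀ n : ℕ,
        ModularFormClass.qCoeff f (p * n) +
            ε (p : ZMod N) * (if p ∣ n then ModularFormClass.qCoeff f (n / p) else 0) =
          ModularFormClass.qCoeff f p * ModularFormClass.qCoeff f n)
    (g : SL(2, ℤ)) (hg : g ∈ Gamma0 N) :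
    (⇑f) ∣[(1 : ℤ)] g = ε ((g 1 1 : ℤ) : ZMod N) • ⇑f :=
  slash_eq_eps_smul ε f hT g hg

/-- The character of a non-zero weight one form is odd. -/
theorem eps_neg_one (ε : DirichletCharacter ℂ N) (f : CuspForm (Gamma1 N) 1)
    (hT : ∀ p : ℕ, p.Prime → ¬ p ∣ N → ∀ n : ℕ,
        ModularFormClass.qCoeff f (p * n) +
            ε (p : ZMod N) * (if p ∣ n then ModularFormClass.qCoeff f (n / p) else 0) =
          ModularFormClass.qCoeff f p * ModularFormClass.qCoeff f n)
    (hf : (⇑f : ℍ → ℂ) ≠ 0) : ε (-1) = -1 := by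
  obtain ⟨τ, hτ⟩ : ∃ τ, f τ ≠ 0 := by
    by_contra hcon
    push Not at hcon
    exact hf (funext hcon)
  have hmem : (-1 : SL(2, ℤ)) ∈ Gamma0 N := by
    rw [Gamma0_mem]
    simp
  have h := congrFun (SL_slash_eq_eps_smul ε f hT (-1) hmem) τ
  rw [ModularForm.SL_slash_apply] at h
  have h11 : ((((-1 : SL(2, ℤ)) 1 1 : ℤ)) : ZMod N) = -1 := by simp
  rw [h11] at h
  have hden : denom ((-1 : SL(2, ℤ)) : GL (Fin 2) ℝ) τ = -1 := by
    simp [denom]
  have hsm : (-1 : SL(2, ℤ)) • τ = τ := by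
    rw [ModularGroup.SL_neg_smul, one_smul]
  rw [hsm] at h
  simp only [Pi.smul_apply, smul_eq_mul] at h
  have h2 : f τ * (-1) = ε (-1) * f τ := by
    rw [← h]
    congr 1
    symm
    show denom ((-1 : SL(2, ℤ)) : GL (Fin 2) ℝ) τ ^ (-(1 : ℤ)) = -1
    rw [hden]
    norm_num
  have h3 : (ε (-1) + 1) * f τ = 0 := by linear_combination -h2
  rcases mul_eq_zero.mp h3 with h4 | h4
  · linear_combination h4
  · exact absurd h4 hτ

/-- Oddness under the normalisation `a₁ = 1` of the frozen statement. -/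
theorem eps_neg_one_of_qCoeff_one (ε : DirichletCharacter ℂ N) (f : CuspForm (Gamma1 N) 1)
    (hf₁ : ModularFormClass.qCoeff f 1 = 1)
    (hT : ∀ p : ℕ, p.Prime → ¬ p ∣ N → ∀ n : ℕ,
        ModularFormClass.qCoeff f (p * n) +
            ε (p : ZMod N) * (if p ∣ n then ModularFormClass.qCoeff f (n / p) else 0) =
          ModularFormClass.qCoeff f p * ModularFormClass.qCoeff f n) : ε (-1) = -1 := by
  refine eps_neg_one ε f hT fun h0 => ?_
  rw [h0] at hf₁
  have : ModularFormClass.qCoeff (0 : ℍ → ℂ) 1 = 0 := by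
    simp [ModularFormClass.qCoeff, qExpansion_zero]
  rw [this] at hf₁
  exact zero_ne_one hf₁

end Final

end Fermat.Agent.S48x.Nebentypus
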