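import Mathlib
import Fermat.Agent.S48x.DS2.Contract
import Fermat.Agent.S48x.Hecke1.Eigen

/-!
# P-S48 (H1): the instance `heckeOps1 M k : DS2.HeckeOps1 M k`  (helper62)

The contract structure `Fermat.Agent.S48x.DS2.HeckeOps1` instantiated with the operators of
`Fermat.Agent.S48x.Hecke1` (`diamLin`, `heckeTLin`), for every level `M` and every weight `k`.
`T n` is `0` unless `n` is a prime not dividing `M`.
-/

set_option autoImplicit false

namespace Fermat.Agent.S48x.Nebentypus

open CongruenceSubgroup Matrix.SpecialLinearGroup UpperHalfPlane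
open Fermat.Agent.S48x.Hecke1
open scoped MatrixGroups ModularForm

variable (M : ℕ) [NeZero M] (k : ℤ)

/-- The diamond operators as a monoid homomorphism. -/
noncomputable def diamHom : (ZMod M)ˣ →* Module.End ℂ (CuspForm (Gamma1 M) k) where
  toFun d := diamLin d
  map_one' := diamLin_one
  map_mul' d e := by
    rw [diamLin_mul, (diamLin_comm d e).eq]
    rfl

open Classical in
/-- `T_n`: the Hecke operator if `n` is a prime not dividing `M`, and `0` otherwise. -/
noncomputable def heckeTn (n : ℕ) : Module.End ℂ (CuspForm (Gamma1 M) k) :=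
  if h : n.Prime ∧ ¬ n ∣ M then heckeTLin k h.1 h.2 else 0

theorem heckeTn_eq {p : ℕ} (hp : p.Prime) (hpM : ¬ p ∣ M) : heckeTn M k p = heckeTLin k hp hpM := by
  rw [heckeTn, dif_pos ⟨hp, hpM⟩]

/-- **H1**: the Hecke operators on `S_k(Γ₁(M))` in the contract shape of `DS2/Contract.lean`. -/
noncomputable def heckeOps1 : DS2.HeckeOps1 M k where
  diam := diamHom M k
  T := heckeTn M k
  diam_slash := by
    intro d γ hγ hd f
    exact coe_diamLin_eq d f hγ hd
  qCoeff_T := by
    intro p hp hpM f n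
    rw [heckeTn_eq M k hp hpM]
    exact qCoeff_heckeTLin' hp hpM f n
  comm_T_T := by
    intro p q hp hq hpM hqM
    rw [heckeTn_eq M k hp hpM, heckeTn_eq M k hq hqM]
    exact heckeTLin_comm hp hpM hq hqM
  comm_T_diam := by
    intro p d hp hpM
    rw [heckeTn_eq M k hp hpM]
    exact heckeTLin_diamLin_comm k hp hpM d

@[simp] theorem heckeOps1_diam (d : (ZMod M)ˣ) : (heckeOps1 M k).diam d = diamLin d := rfl

theorem heckeOps1_T {p : ℕ} (hp : p.Prime) (hpM : ¬ p ∣ M) :
    (heckeOps1 M k).T p = heckeTLin k hp hpM := heckeTn_eq M k hp hpM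

/-- The contract Hecke algebra coincides with `Hecke1.heckeAlgebra1`. -/
theorem heckeOps1_algebra_eq (S : Set ℕ) : (heckeOps1 M k).algebra S = heckeAlgebra1 M k S := by
  unfold DS2.HeckeOps1.algebra heckeAlgebra1
  congr 1
  ext t
  constructor
  · rintro (⟨p, hp, hpM, hpS, rfl⟩ | ⟨d, rfl⟩)
    · rw [heckeOps1_T M k hp hpM]
      exact heckeTLin_mem_heckeGenerators1 hp hpM hpS
    · exact diamLin_mem_heckeGenerators1 d
  · rintro (⟨p, hp, hpM, hpS, rfl⟩ | ⟨d, rfl⟩)
    · exact Or.inl ⟨p, hp, hpM, hpS, (heckeOps1_T M k hp hpM).symm⟩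
    · exact Or.inr ⟨d, rfl⟩

end Fermat.Agent.S48x.Nebentypus
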